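/-
Project BAD, block LevelQ, sub-block LQ-GAL (owner helper39): SKELETON.  Automorphisms of the base
field acting on the concrete model of level `M q`.  Consumers: S33 (NodeNew: `g₀ = σF τ`),
S44 (`Depth.RamAut`), S34 (DVR level Galois compatibilities).
Section A -> file `BAD/LevelQ/Mod/GalAlg.lean`, section B -> file `BAD/LevelQ/Mod/GalVal.lean`.
-/
import Fermat.Agent.BAD.LevelQ.Mod.GalDefs
import Fermat.Agent.S36.BP.Defs

set_option autoImplicit false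

noncomputable section

namespace Fermat.Agent.BAD.LevelQ.Mod

open ModularCurve Fermat.Agent.S24 Fermat.Agent.S18 Fermat.Agent.S18.Descent Fermat.Agent.S36.Mod
  Fermat.Agent.S36.BP

variable {K : Type*} [Field K] [Algebra ℚ K]

/-! ### A : algebraic identities -/
section A

theorem gal_const (τ : K ≃+* K) (N : ℕ) (a : K) :
    gal τ N (algebraMap K (FK K N) a) = algebraMap K (FK K N) (τ a) := sorry

/-- functions with rational `q`-expansion are fixed -/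
theorem gal_eq_self_of_rational (τ : K ≃+* K) (N : ℕ) (f : FK K N) (g : LaurentSeries ℚ)
    (hf : (f : LaurentSeries K) = coeffEmb K g) : gal τ N f = f := sorry

theorem gal_JK (τ : K ≃+* K) (N d : ℕ) [NeZero d] (hd : d ∣ N) :
    gal τ N (JK K N d hd) = JK K N d hd := sorry

theorem gal_xK (τ : K ≃+* K) {M ℓ : ℕ} (D : BaseData M ℓ) : gal τ M (D.xK K) = D.xK K := sorry

variable {M q : ℕ} [NeZero M] [NeZero q]

theorem gal_al (τ : K ≃+* K) (f : FK K M) :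
    gal τ (M * q) (al K M q f) = al K M q (gal τ M f) := sorry

theorem gal_be (τ : K ≃+* K) (f : FK K M) :
    gal τ (M * q) (be K M q f) = be K M q (gal τ M f) := sorry

theorem gal_ww [Algebra K Kbar] (τ : K ≃+* K) (hc : M.Coprime q) (y : FK K (M * q)) :
    gal τ (M * q) (ww K hc y) = ww K hc (gal τ (M * q) y) := sorry

theorem gal_xx (τ : K ≃+* K) {ℓ : ℕ} (D : BaseData M ℓ) :
    gal τ (M * q) (xx (al K M q) (be K M q) (D.xK K)) = xx (al K M q) (be K M q) (D.xK K) := sorry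

end A

/-! ### B : valuations, charts, depth -/
section B

variable {A₀ : ValuationSubring K} [IsDiscreteValuationRing A₀] {ϖ₀ : K}

theorem gal_mem_Og {τ : K ≃+* K} (hτ : A₀.comap (τ : K →+* K) = A₀) (N : ℕ) (f : FK K N) :
    gal τ N f ∈ Og A₀ N ↔ f ∈ Og A₀ N := sorry

theorem gal_mem_chart {τ : K ≃+* K} (hτ : A₀.comap (τ : K →+* K) = A₀) {N : ℕ} {z y : FK K N}
    (hz : gal τ N z = z) (hy : y ∈ chart A₀.toSubring z) : gal τ N y ∈ chart A₀.toSubring z := sorry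

/-- depth: if `τ ≡ id` modulo `ϖ₀ ^ n` on `A₀` then `τ ≡ id` modulo `ϖ₀ ^ n` on the Gauss ring -/
theorem gal_sub_mem_Og (h₀ : IsUnif A₀ ϖ₀) {τ : K ≃+* K} (hτ : A₀.comap (τ : K →+* K) = A₀) (n : ℕ)
    (hn : ∀ a ∈ A₀, (τ a - a) / ϖ₀ ^ n ∈ A₀) (N : ℕ) (f : FK K N) (hf : f ∈ Og A₀ N) :
    (gal τ N f - f) / algebraMap K (FK K N) ϖ₀ ^ n ∈ Og A₀ N := sorry

variable {M q : ℕ} [NeZero M] [NeZero q] [Algebra K Kbar]

theorem gal_mem_VV {τ : K ≃+* K} (hτ : A₀.comap (τ : K →+* K) = A₀) (hc : M.Coprime q) (c : Fin 2)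
    (y : FK K (M * q)) : gal τ (M * q) y ∈ VV A₀ hc c ↔ y ∈ VV A₀ hc c := sorry

theorem gal_val_lt_one {τ : K ≃+* K} (hτ : A₀.comap (τ : K →+* K) = A₀) (hc : M.Coprime q)
    (c : Fin 2) (y : FK K (M * q)) :
    (VV A₀ hc c).valuation (gal τ (M * q) y) < 1 ↔ (VV A₀ hc c).valuation y < 1 := sorry

theorem gal_sub_mem_VV (h₀ : IsUnif A₀ ϖ₀) {τ : K ≃+* K} (hτ : A₀.comap (τ : K →+* K) = A₀)
    (n : ℕ) (hn : ∀ a ∈ A₀, (τ a - a) / ϖ₀ ^ n ∈ A₀) (hc : M.Coprime q) (c : Fin 2)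
    (y : FK K (M * q)) (hy : y ∈ VV A₀ hc c) :
    (gal τ (M * q) y - y) / algebraMap K (FK K (M * q)) ϖ₀ ^ n ∈ VV A₀ hc c := sorry

/-- Abstract: an endomorphism preserving `B` and trivial modulo `𝔫` preserves the local ring. -/
theorem map_mem_locSub {F : Type*} [Field F] (B : Subring F) (𝔫 : Ideal B) [𝔫.IsPrime]
    (g : F →+* F) (hB : ∀ b ∈ B, g b ∈ B)
    (h𝔫 : ∀ b : B, (⟨g b, hB b b.2⟩ : B) - b ∈ 𝔫) {r : F} (hr : r ∈ locSub B 𝔫) :
    g r ∈ locSub B 𝔫 := sorry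

end B

end Fermat.Agent.BAD.LevelQ.Mod
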