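import Fermat.Agent.BAD.LevelQ.Mod.WIP.Skeleton

set_option autoImplicit false

noncomputable section

namespace Fermat.Agent.BAD.LevelQ.Mod

open ModularCurve Fermat.Agent.S24 Fermat.Agent.S18 Fermat.Agent.S18.Vert
  Fermat.Agent.S18.Descent Fermat.Agent.S36.Mod IntermediateField Polynomial

variable {K : Type*} [Field K] [Algebra ℚ K] [Algebra K Kbar]
  {A₀ : ValuationSubring K} [IsDiscreteValuationRing A₀] {ϖ₀ : K}
  {M q : ℕ} [NeZero M] [NeZero q]

theorem lq' (h₀ : IsUnif A₀ ϖ₀) (hq : q.Prime) (hqM : ¬ q ∣ M) (hchar : A₀.valuation (q : K) < 1)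
    (hc : M.Coprime q) {γ₀ : K →+* K} (hγ : IsFrobInv A₀ q γ₀) (D : BaseData M q) (hD : BeInt D) :
    LQ A₀ ϖ₀ q (al K M q) (be K M q) (ww K hc) (gam K γ₀ M) (Og A₀ M) (VV A₀ hc) (D.xK K) := by
  haveI : Fact q.Prime := ⟨hq⟩
  have hℓA : (q : K) / ϖ₀ ∈ A₀ := (Two.lt_one_iff_div_mem h₀ _).1 hchar
  have hG := isGauss_Og (K := K) h₀ M
  exact
  { prime := hq
    char := hchar
    w_al := ww_al hc
    w_be := ww_be hc
    w_w := ww_ww hc
    V_one := mem_VV_one hc
    vert' := Export.isVert_base h₀ hqM hℓA D hG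
    coord' := isCoord_base h₀ D hG
    chart₁' := Export.isChart_base h₀ hqM hℓA D hG
    chart₂' := Export.isChart_base_inv h₀ hqM hℓA D hG
    unif := isUnif_VV h₀ hc 0
    comap_al := al_mem_iff
    comap_be := be_mem_iff
    dense := dense_oo h₀ hq hqM hchar hc
    γ_const := fun a ha => ⟨γ₀ a, by
      have : a ∈ A₀.comap γ₀ := by rw [hγ.comap]; exact ha
      exact this, gam_const γ₀ a⟩
    γ_x := gam_xK γ₀ D
    γ_mem := fun f hf => gam_mem hγ.comap hf
    kron := fun f hf => kron hq hchar hγ hf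
    sep := isSep_VV hq hchar hc
    complete := isMVert_al h₀ hq hqM hchar hc D
    be_int := be_int_of_bar D hD }

end Fermat.Agent.BAD.LevelQ.Mod
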