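/-
Project BAD, block LevelQ, sub-block LQ-MOD (helper39 / helper88): SKELETON of the concrete instance
of the hub `LQ` at level `M q`.  Each section = one task = one file `BAD/LevelQ/Mod/<Name>.lean`
(copy the statements VERBATIM).
-/
import Fermat.Agent.BAD.LevelQ.Mod.Defs
import Fermat.Agent.S18.Export.IsChartBase
import Fermat.Agent.BAD.LevelQ.Abs.Two
import Fermat.Agent.BAD.LevelQ.Abs.Tower
import Fermat.Agent.S36.Mod.Setup

set_option autoImplicit false

noncomputable section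

namespace Fermat.Agent.BAD.LevelQ.Mod

open ModularCurve Fermat.Agent.S24 Fermat.Agent.S18 Fermat.Agent.S18.Vert
  Fermat.Agent.S18.Descent Fermat.Agent.S36.Mod IntermediateField Polynomial

variable {K : Type*} [Field K] [Algebra ℚ K] [Algebra K Kbar]
  {A₀ : ValuationSubring K} [IsDiscreteValuationRing A₀] {ϖ₀ : K}
  {M q : ℕ} [NeZero M] [NeZero q]

/-! ### Gauss : bridge `IntEmb.val` ↔ `S18.IsGauss` (file Mod/Gauss.lean) -/
section Gauss

omit [Algebra K Kbar] in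
theorem isGauss_Og (h₀ : IsUnif A₀ ϖ₀) (N : ℕ) : IsGauss A₀ ϖ₀ (FK K N) (Og A₀ N) := sorry

omit [Algebra K Kbar] in
theorem valuation_lt_one_iff_res (N : ℕ) (f : FK K N) (hf : f ∈ Og A₀ N) :
    (Og A₀ N).valuation f < 1 ↔ (stdEmb A₀ N).res ⟨f, hf⟩ = 0 := sorry

end Gauss

/-! ### AL : Atkin-Lehner (file Mod/AL.lean) -/
section AL

theorem ww_al (hc : M.Coprime q) (f : FK K M) : ww K hc (al K M q f) = be K M q f := sorry

theorem ww_be (hc : M.Coprime q) (f : FK K M) : ww K hc (be K M q f) = al K M q f := sorry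

theorem ww_ww (hc : M.Coprime q) (y : FK K (M * q)) : ww K hc (ww K hc y) = y := sorry

theorem mem_VV_one (hc : M.Coprime q) (y : FK K (M * q)) :
    y ∈ VV A₀ hc 1 ↔ ww K hc y ∈ VV A₀ hc 0 := sorry

end AL

/-! ### Table : comaps and residues along `al`, `be` (file Mod/Table.lean) -/
section Table

omit [Algebra K Kbar] in
theorem al_mem_iff (f : FK K M) : al K M q f ∈ Og A₀ (M * q) ↔ f ∈ Og A₀ M := sorry

omit [Algebra K Kbar] in
theorem be_mem_iff (f : FK K M) : be K M q f ∈ Og A₀ (M * q) ↔ f ∈ Og A₀ M := sorry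

omit [Algebra K Kbar] in
theorem res_al (f : FK K M) (h : f ∈ Og A₀ M) (h' : al K M q f ∈ Og A₀ (M * q)) :
    (stdEmb A₀ (M * q)).res ⟨al K M q f, h'⟩ = (stdEmb A₀ M).res ⟨f, h⟩ := sorry

omit [Algebra K Kbar] in
theorem res_be (f : FK K M) (h : f ∈ Og A₀ M) (h' : be K M q f ∈ Og A₀ (M * q)) :
    (stdEmb A₀ (M * q)).res ⟨be K M q f, h'⟩ = qExpand _ q ((stdEmb A₀ M).res ⟨f, h⟩) := sorry

end Table

/-! ### Kron : the inverse Frobenius on the coefficients and Kronecker's congruence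
(file Mod/Kron.lean) -/
section Kron

/-- `γ₀` is an endomorphism of `K` preserving `A₀` and inducing the inverse of the Frobenius on the
residue field. -/
structure IsFrobInv (A₀ : ValuationSubring K) (q : ℕ) (γ₀ : K →+* K) : Prop where
  comap : A₀.comap γ₀ = A₀
  frob : ∀ a ∈ A₀, A₀.valuation (γ₀ a ^ q - a) < 1

omit [Algebra K Kbar] in
theorem gam_const (γ₀ : K →+* K) (a : K) :
    gam K γ₀ M (algebraMap K (FK K M) a) = algebraMap K (FK K M) (γ₀ a) := sorry

omit [Algebra K Kbar] in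
theorem gam_xK (γ₀ : K →+* K) {ℓ : ℕ} (D : BaseData M ℓ) : gam K γ₀ M (D.xK K) = D.xK K := sorry

omit [Algebra K Kbar] in
theorem gam_mem {γ₀ : K →+* K} (hγ : A₀.comap γ₀ = A₀) {f : FK K M} (hf : f ∈ Og A₀ M) :
    gam K γ₀ M f ∈ Og A₀ M := sorry

omit [Algebra K Kbar] in
theorem kron (hq : q.Prime) (hchar : A₀.valuation (q : K) < 1) {γ₀ : K →+* K}
    (hγ : IsFrobInv A₀ q γ₀) {f : FK K M} (hf : f ∈ Og A₀ M) :
    (Og A₀ (M * q)).valuation (be K M q f - al K M q (gam K γ₀ M f) ^ q) < 1 := sorry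

omit [Algebra K Kbar] in
/-- Kronecker's congruence for `j` (no Frobenius lift needed). -/
theorem kron_j (hq : q.Prime) (hchar : A₀.valuation (q : K) < 1) :
    (Og A₀ (M * q)).valuation (be K M q (jK K M) - al K M q (jK K M) ^ q) < 1 := sorry

omit [Algebra K Kbar] in
/-- `j(z) - j(q z)^q` is a unit at `v_∞`. -/
theorem unit_j (hq : q.Prime) (hchar : A₀.valuation (q : K) < 1) :
    (Og A₀ (M * q)).valuation (al K M q (jK K M) - be K M q (jK K M) ^ q) = 1 := sorry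

end Kron

/-! ### Frob : existence of `γ₀` (file Mod/Frob.lean) -/
section Frob

/-- For a subfield of `ℚ̄` stable under the decomposition group (a normal extension of `ℚ`, the
inertia field, ...). -/
theorem exists_isFrobInv (A : ValuationSubring Kbar) (hq : q.Prime) (hA : A.LiesOverPrime q)
    (K₀ : IntermediateField ℚ Kbar)
    (hK : ∀ σ : Kbar ≃ₐ[ℚ] Kbar, σ ∈ A.decompositionSubgroup ℚ → ∀ x ∈ K₀, σ x ∈ K₀) :
    ∃ γ₀ : K₀ →+* K₀, IsFrobInv (A.comap (algebraMap K₀ Kbar)) q γ₀ := sorry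

end Frob

/-! ### Sep : `v_∞ ≠ v_0` (file Mod/Sep.lean) -/
section Sep

theorem isSep_VV (hq : q.Prime) (hchar : A₀.valuation (q : K) < 1) (hc : M.Coprime q) :
    IsSep (VV A₀ hc) := sorry

theorem exists_idem (hq : q.Prime) (hchar : A₀.valuation (q : K) < 1) (hc : M.Coprime q) :
    ∃ e : FK K (M * q), (VV A₀ hc 0).valuation (e - 1) < 1 ∧ (VV A₀ hc 1).valuation e < 1 := sorry

theorem isUnif_VV (h₀ : IsUnif A₀ ϖ₀) (hc : M.Coprime q) (c : Fin 2) :
    IsUnif (VV A₀ hc c) (algebraMap K (FK K (M * q)) ϖ₀) := sorry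

end Sep

/-! ### Deg : `[F : al F'] = q + 1` over `K` (file Mod/Deg.lean) -/
section Deg

theorem finite_al :
    letI := (al K M q).toRingHom.toAlgebra
    FiniteDimensional (FK K M) (FK K (M * q)) := sorry

theorem finrank_al (hq : q.Prime) (hqM : ¬ q ∣ M) :
    letI := (al K M q).toRingHom.toAlgebra
    Module.finrank (FK K M) (FK K (M * q)) = q + 1 := sorry

end Deg

/-! ### Ind : `1, j(qz), …, j(qz)^(q-1)` are independent on `v_0` over `al F'` (file Mod/Ind.lean) -/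
section Ind

theorem ind_theta (hq : q.Prime) (hchar : A₀.valuation (q : K) < 1) (hc : M.Coprime q)
    (a : Fin q → FK K M) (ha : ∀ i, a i ∈ Og A₀ M)
    (h : (VV A₀ hc 1).valuation (∑ i, al K M q (a i) * be K M q (jK K M) ^ (i : ℕ)) < 1) :
    ∀ i, (Og A₀ M).valuation (a i) < 1 := sorry

end Ind

/-! ### Two : completeness and residue degree one (file Mod/Two.lean) -/
section Two

theorem twoHyp (h₀ : IsUnif A₀ ϖ₀) (hq : q.Prime) (hqM : ¬ q ∣ M)
    (hchar : A₀.valuation (q : K) < 1) (hc : M.Coprime q) :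
    letI := (al K M q).toRingHom.toAlgebra
    ∃ e : FK K (M * q), TwoHyp (Og A₀ M) (algebraMap K (FK K M) ϖ₀) (VV A₀ hc 0) (VV A₀ hc 1) q e
      (be K M q (jK K M)) := sorry

theorem dense_oo (h₀ : IsUnif A₀ ϖ₀) (hq : q.Prime) (hqM : ¬ q ∣ M)
    (hchar : A₀.valuation (q : K) < 1) (hc : M.Coprime q) :
    ∀ y ∈ VV A₀ hc 0, ∃ r ∈ Og A₀ M, (VV A₀ hc 0).valuation (y - al K M q r) < 1 := sorry

theorem integral_al (h₀ : IsUnif A₀ ϖ₀) (hq : q.Prime) (hqM : ¬ q ∣ M)
    (hchar : A₀.valuation (q : K) < 1) (hc : M.Coprime q) :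
    ∀ y : FK K (M * q), (∀ c, y ∈ VV A₀ hc c) →
      ∃ p : (FK K M)[X], p.Monic ∧ (∀ i, p.coeff i ∈ Og A₀ M) ∧
        (p.map (al K M q).toRingHom).eval y = 0 := sorry

theorem isMVert_al (h₀ : IsUnif A₀ ϖ₀) (hq : q.Prime) (hqM : ¬ q ∣ M)
    (hchar : A₀.valuation (q : K) < 1) (hc : M.Coprime q) (D : BaseData M q) :
    IsMVert A₀ ϖ₀ (VV A₀ hc) K⟮al K M q (D.xK K)⟯ := sorry

/-- completeness in the form used by S36 -/
theorem complete_al (h₀ : IsUnif A₀ ϖ₀) (hq : q.Prime) (hqM : ¬ q ∣ M)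
    (hchar : A₀.valuation (q : K) < 1) (hc : M.Coprime q) (W : ValuationSubring (FK K (M * q)))
    (hW : W.comap (al K M q).toRingHom = Og A₀ M) : W = VV A₀ hc 0 ∨ W = VV A₀ hc 1 := sorry

end Two

/-! ### Pole : `x'(q z)` is integral over `K[x'(z)]` (file Mod/Pole.lean) -/
section Pole

/-- The statement over `ℚ̄` (providers: helper284 `BaseOK` for `j, h₂, h₃`; helper208 for
`h₄, h₉`). -/
def BeInt {M q : ℕ} [NeZero M] [NeZero q] (D : BaseData M q) : Prop :=
  heckeBetaBar Kbar M q (D.xK Kbar) ∈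
    chart (⊤ : Subring Kbar) (heckeAlphaBar Kbar M q (D.xK Kbar))

theorem be_int_of_bar (D : BaseData M q) (h : BeInt D) :
    be K M q (D.xK K) ∈ chart (⊤ : Subring K) (al K M q (D.xK K)) := sorry

end Pole

/-! ### Main : the instance of the hub (file Mod/Main.lean) -/
section Main

theorem lq (h₀ : IsUnif A₀ ϖ₀) (hq : q.Prime) (hqM : ¬ q ∣ M) (hchar : A₀.valuation (q : K) < 1)
    (hc : M.Coprime q) {γ₀ : K →+* K} (hγ : IsFrobInv A₀ q γ₀) (D : BaseData M q) (hD : BeInt D) :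
    LQ A₀ ϖ₀ q (al K M q) (be K M q) (ww K hc) (gam K γ₀ M) (Og A₀ M) (VV A₀ hc) (D.xK K) := sorry

end Main

end Fermat.Agent.BAD.LevelQ.Mod

/-! ### Setup : the same in the language of `S36/Mod/Setup.lean` (file Mod/Setup.lean):
COMPLETE1, DENSE1 of helper36's ruling and block L0 of helper98's `BAD/Model/WIP/Instance.lean` -/
namespace Fermat.Agent.S36.Mod.Setup

open ModularCurve Fermat.Agent.S24 Fermat.Agent.S18 IntermediateField

variable {K K' : Type*} [Field K] [Field K'] [Algebra ℚ K] [Algebra ℚ K'] [Algebra K Kbar]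
  [Algebra K' Kbar] (S : Setup K K')

theorem isUnif_B : IsUnif S.B ((S.q : ℕ) : K) := sorry

theorem isGauss_V0 : IsGauss S.B ((S.q : ℕ) : K) (FK K S.N0) S.V0 := sorry

theorem isGauss_V1oo : IsGauss S.B ((S.q : ℕ) : K) (FK K (S.N0 * S.q)) S.V1oo := sorry

theorem complete1 (W : ValuationSubring S.F1) (hW : W.comap S.al0.toRingHom = S.V0) :
    W = S.V1oo ∨ W = S.V10 := sorry

theorem dense1_oo : ∀ y ∈ S.V1oo, ∃ r : S.F0, S.V1oo.valuation (S.al0 r - y) < 1 := sorry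

theorem dense1_0 : ∀ y ∈ S.V10, ∃ r : S.F0, S.V10.valuation (S.be0 r - y) < 1 := sorry

variable (D : BaseData S.N0 S.q)

theorem transc₀ : Transcendental K (D.xK K) := sorry
theorem unifw : IsUnif S.V0 ((S.q : ℕ) : S.F0) := sorry
theorem const₀ : ∀ a ∈ S.B, algebraMap K S.F0 a ∈ S.V0 := sorry
theorem x_unit₀ : S.V0.valuation (D.xK K) = 1 := sorry
theorem chart₁ : IsChart S.V0 ((S.q : ℕ) : S.F0) (chart S.B.toSubring (D.xK K)) := sorry
theorem chart₂ : IsChart S.V0 ((S.q : ℕ) : S.F0) (chart S.B.toSubring (D.xK K)⁻¹) := sorry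
theorem finite_a : FiniteDimensional K⟮(S.al1.comp S.al0) (D.xK K)⟯ S.F2 := sorry
theorem finite_b : FiniteDimensional K⟮(S.be1.comp S.be0) (D.xK K)⟯ S.F2 := sorry

end Fermat.Agent.S36.Mod.Setup
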